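import Fermat.Agent.LOneGRH.Bounds
import Fermat.Agent.PrimesMinusOne.TotientSum

/-!
# `L'/L (1, χ) = O (log log q)` on GRH, with the constant `2`

`-L'/L (1, χ) = ∑_{n ≤ N} Λ n χ n / n + O (1 + log (2 q) / √N)`, by two summations by parts.
-/

set_option autoImplicit false

noncomputable section

namespace FA.PaleyCharSum

open Finset Filter DirichletCharacter
open FA.DirichletHadamard (GRHFor)
open FA.Gallagher (psiOneChar twist)
open FA.LOneGRH (abel_identity abel_positive sum_inv_sqrt_cube sqrt_cube_step rpow_neg_le_inv)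
open scoped Topology ArithmeticFunction.vonMangoldt

/-- The first difference of `n ^ (-s)`. -/
def powDiff (s : ℝ) (n : ℕ) : ℝ := (n : ℝ) ^ (-s) - ((n + 1 : ℕ) : ℝ) ^ (-s)

variable {s : ℝ} {n : ℕ}

theorem powDiff_nonneg (hs : 1 ≤ s) (hn : 1 ≤ n) : 0 ≤ powDiff s n :=
  sub_nonneg.2 (Real.rpow_le_rpow_of_nonpos (Nat.cast_pos.2 hn)
    (Nat.cast_le.2 (Nat.le_succ n)) (by linarith))

theorem powDiff_anti (hs : 1 ≤ s) (hn : 1 ≤ n) : powDiff s (n + 1) ≤ powDiff s n := by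
  obtain ⟨A, hA⟩ : ∃ A, A = (n : ℝ) ^ (-s) := ⟨_, rfl⟩
  obtain ⟨B, hB⟩ : ∃ B, B = ((n + 1 : ℕ) : ℝ) ^ (-s) := ⟨_, rfl⟩
  obtain ⟨C, hC⟩ : ∃ C, C = ((n + 1 + 1 : ℕ) : ℝ) ^ (-s) := ⟨_, rfl⟩
  have hA0 : 0 ≤ A := hA ▸ by positivity
  have hB0 : 0 ≤ B := hB ▸ by positivity
  have hC0 : 0 ≤ C := hC ▸ by positivity
  have hn0 : (0 : ℝ) < n := Nat.cast_pos.2 hn
  have hmid : B * B ≤ A * C := by
    rw [hA, hB, hC, ← Real.mul_rpow (by positivity) (by positivity),
      ← Real.mul_rpow (by positivity) (by positivity)]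
    exact Real.rpow_le_rpow_of_nonpos (by positivity) (by push_cast; nlinarith) (by linarith)
  rw [powDiff, powDiff, ← hA, ← hB, ← hC]
  nlinarith [sq_nonneg (A - C)]

theorem powDiff_le (hs : 1 ≤ s) (hs2 : s ≤ 2) (hn : 1 ≤ n) :
    powDiff s n ≤ 2 / (n : ℝ) ^ 2 := by
  have h0 : (0 : ℝ) < n := Nat.cast_pos.2 hn
  obtain ⟨u, hu⟩ : ∃ u : ℝ, u = (n : ℝ) ^ (-s) := ⟨_, rfl⟩
  obtain ⟨v, hv⟩ : ∃ v : ℝ, v = ((n + 1 : ℕ) : ℝ) ^ (-s) := ⟨_, rfl⟩
  have hu0 : 0 ≤ u := hu ▸ by positivity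
  have hu1 : u ≤ 1 / n := hu ▸ rpow_neg_le_inv hs hn
  have hv1 : u * ((n : ℝ) / (n + 1)) ^ 2 ≤ v := by
    have e : v = u * ((n : ℝ) / (n + 1)) ^ s := by
      rw [hu, hv, Real.rpow_neg h0.le, Real.rpow_neg (by positivity),
        Real.div_rpow h0.le (by positivity)]
      push_cast
      field_simp
    rw [e, ← Real.rpow_two]
    refine mul_le_mul_of_nonneg_left (Real.rpow_le_rpow_of_exponent_ge (by positivity) ?_ hs2) hu0
    rw [div_le_one (by positivity)]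
    linarith
  have h1 : 1 - ((n : ℝ) / (n + 1)) ^ 2 ≤ 2 / n := by
    rw [sub_le_iff_le_add, div_pow, div_add_div _ _ (by positivity) (by positivity),
      le_div_iff₀ (by positivity)]
    nlinarith
  have h2 : 0 ≤ 1 - ((n : ℝ) / (n + 1)) ^ 2 := by
    rw [sub_nonneg]
    exact pow_le_one₀ (by positivity) (by rw [div_le_one (by positivity)]; linarith)
  rw [powDiff, ← hu, ← hv]
  calc u - v ≤ u * (1 - ((n : ℝ) / (n + 1)) ^ 2) := by linarith
    _ ≤ 1 / n * (2 / n) := mul_le_mul hu1 h1 h2 (by positivity)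
    _ = _ := by ring

/-- **The tail.** -/
theorem norm_sum_rpow_le {a : ℕ → ℂ} {K : ℝ} (hK : 0 ≤ K)
    (h1 : ∀ n : ℕ, ‖∑ k ∈ Ioc 0 n, a k‖ ≤ 6 * n)
    (h2 : ∀ n : ℕ, ‖∑ k ∈ Ioc 0 n, ∑ j ∈ Ioc 0 k, a j‖ ≤
      K * ((n + 1 : ℕ) * √((n + 1 : ℕ) : ℝ)))
    (hs : 1 ≤ s) (hs2 : s ≤ 2) {N M : ℕ} (hN : 1 ≤ N) (hM : N ≤ M) :
    ‖∑ n ∈ Ioc N M, a n * (((n : ℝ) ^ (-s) : ℝ) : ℂ)‖ ≤ 12 + 16 * (K / √N) := by
  obtain ⟨A, hA⟩ : ∃ A : ℕ → ℂ, A = fun n => ∑ k ∈ Ioc 0 n, a k := ⟨_, rfl⟩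
  obtain ⟨g, hg⟩ : ∃ g : ℕ → ℝ, g = fun n : ℕ => (n : ℝ) * √n := ⟨_, rfl⟩
  have hN0 : (0 : ℝ) < √N := Real.sqrt_pos.2 (Nat.cast_pos.2 hN)
  have hedge : ∀ m : ℕ, N ≤ m →
      ‖A m * ((((m + 1 : ℕ) : ℝ) ^ (-s) : ℝ) : ℂ)‖ ≤ 6 := fun m hm => by
    rw [norm_mul, Complex.norm_real, Real.norm_of_nonneg (by positivity), hA]
    refine (mul_le_mul (h1 m) (rpow_neg_le_inv hs (by omega)) (by positivity)
      (by positivity)).trans ?_
    rw [mul_one_div, div_le_iff₀ (by positivity)]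
    push_cast
    linarith
  have hgd : g (N + 1) * powDiff s (N + 1) ≤ 2 / √N := by
    rw [hg]
    refine (mul_le_mul_of_nonneg_left (powDiff_le hs hs2 (by omega)) (by positivity)).trans ?_
    rw [show ((N + 1 : ℕ) : ℝ) * √((N + 1 : ℕ) : ℝ) * (2 / ((N + 1 : ℕ) : ℝ) ^ 2) =
        2 / √((N + 1 : ℕ) : ℝ) by
      field_simp
      rw [Real.sq_sqrt (Nat.cast_nonneg _)]]
    exact div_le_div_of_nonneg_left zero_le_two hN0
      (Real.sqrt_le_sqrt (Nat.cast_le.2 (Nat.le_succ N)))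
  have hinner : ‖∑ n ∈ Ioc N M, A n * (powDiff s n : ℂ)‖ ≤ 16 * (K / √N) := by
    rw [abel_identity A (powDiff s) M hM]
    have hB : ∀ m, N ≤ m → ‖(∑ k ∈ Ioc 0 m, A k) * (powDiff s (m + 1) : ℂ)‖ ≤
        K * (g (m + 1) * powDiff s (m + 1)) := fun m _ => by
      rw [norm_mul, Complex.norm_real, Real.norm_of_nonneg (powDiff_nonneg hs (by omega)),
        ← mul_assoc, hg, hA]
      exact mul_le_mul_of_nonneg_right (h2 m) (powDiff_nonneg hs (by omega))
    have hS : ‖∑ n ∈ Ioc N M, (∑ k ∈ Ioc 0 n, A k) *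
        ((powDiff s n - powDiff s (n + 1) : ℝ) : ℂ)‖ ≤
        K * ∑ n ∈ Ioc N M, g (n + 1) * (powDiff s n - powDiff s (n + 1)) := by
      rw [mul_sum]
      refine norm_sum_le_of_le _ fun n hn => ?_
      have h1n : 1 ≤ n := by have := (mem_Ioc.1 hn).1; omega
      rw [norm_mul, Complex.norm_real, Real.norm_of_nonneg (sub_nonneg.2 (powDiff_anti hs h1n)),
        ← mul_assoc, hg, hA]
      exact mul_le_mul_of_nonneg_right (h2 n) (sub_nonneg.2 (powDiff_anti hs h1n))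
    have hgrow : ∑ n ∈ Ioc N M, (g (n + 1) - g n) * powDiff s n ≤ 6 * (2 / √N) := by
      calc ∑ n ∈ Ioc N M, (g (n + 1) - g n) * powDiff s n
          ≤ ∑ n ∈ Ioc N M, 6 * (1 / ((n : ℝ) * √n)) := by
            refine sum_le_sum fun n hn => ?_
            have hNn := (mem_Ioc.1 hn).1
            have hn0 : (0 : ℝ) < n := Nat.cast_pos.2 (by omega)
            rw [hg]
            refine (mul_le_mul (sqrt_cube_step (by omega)) (powDiff_le hs hs2 (by omega))
              (powDiff_nonneg hs (by omega)) (by positivity)).trans (le_of_eq ?_)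
            field_simp
            rw [Real.sq_sqrt hn0.le]
            ring
        _ ≤ _ := by
            rw [← mul_sum]
            refine mul_le_mul_of_nonneg_left ?_ (by norm_num)
            have := sum_inv_sqrt_cube hN M hM
            linarith [show (0 : ℝ) ≤ 2 / √M by positivity]
    have hid := abel_positive g (powDiff s) M hM
    refine ((norm_add_le _ _).trans (add_le_add ((norm_sub_le _ _).trans
      (add_le_add (hB M hM) (hB N le_rfl))) hS)).trans ?_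
    calc K * (g (M + 1) * powDiff s (M + 1)) + K * (g (N + 1) * powDiff s (N + 1)) +
          K * ∑ n ∈ Ioc N M, g (n + 1) * (powDiff s n - powDiff s (n + 1))
        = K * (2 * (g (N + 1) * powDiff s (N + 1)) +
            ∑ n ∈ Ioc N M, (g (n + 1) - g n) * powDiff s n) := by
          linear_combination K * hid
      _ ≤ K * (2 * (2 / √N) + 6 * (2 / √N)) :=
          mul_le_mul_of_nonneg_left (add_le_add (by linarith) hgrow) hK
      _ = _ := by ring
  have e := abel_identity a (fun n : ℕ => (n : ℝ) ^ (-s)) M hM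
  have e1 := hedge M hM
  have e2 := hedge N le_rfl
  rw [e]
  rw [hA] at e1 e2 hinner
  refine ((norm_add_le _ _).trans (add_le_add ((norm_sub_le _ _).trans
    (add_le_add e1 e2)) hinner)).trans (le_of_eq ?_)
  ring

variable {q : ℕ} [NeZero q]

omit [NeZero q] in
theorem norm_sum_twist_le (χ : DirichletCharacter ℂ q) (n : ℕ) :
    ‖∑ k ∈ Ioc 0 n, twist χ k‖ ≤ 6 * n := by
  have h1 : ‖∑ k ∈ Ioc 0 n, twist χ k‖ ≤ Chebyshev.psi n := by
    rw [Chebyshev.psi, Nat.floor_natCast]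
    refine norm_sum_le_of_le _ fun k _ => ?_
    rw [twist, norm_mul, Complex.norm_real,
      Real.norm_of_nonneg ArithmeticFunction.vonMangoldt_nonneg]
    exact mul_le_of_le_one_left ArithmeticFunction.vonMangoldt_nonneg (χ.norm_le_one _)
  refine (h1.trans (Chebyshev.psi_le_const_mul_self (Nat.cast_nonneg n))).trans ?_
  refine mul_le_mul_of_nonneg_right ?_ (Nat.cast_nonneg n)
  have := Real.log_two_lt_d9
  rw [show (4 : ℝ) = 2 ^ 2 by norm_num, Real.log_pow]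
  push_cast
  linarith

/-- **`-L'/L (1, χ)` is a short sum.** -/
theorem exists_logDeriv_one : ∃ C, 0 ≤ C ∧ ∀ (q : ℕ) [NeZero q]
    (χ : DirichletCharacter ℂ q), χ ≠ 1 → GRHFor χ → ∀ N : ℕ, 1 ≤ N →
      ‖-(deriv (LFunction χ) 1) / LFunction χ 1 - ∑ n ∈ Ioc 0 N, twist χ n / n‖ ≤
        C * (1 + Real.log (2 * q) / √N) := by
  obtain ⟨C, hC, h⟩ := LOneGRH.exists_psiOne_nontrivial
  refine ⟨12 + 16 * C, by positivity, fun q _ χ hχ hG N hN => ?_⟩
  obtain ⟨L, hL⟩ : ∃ L, L = Real.log (2 * q) := ⟨_, rfl⟩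
  have hL0 : 0 ≤ L := hL ▸ Real.log_nonneg (by
    linarith [(Nat.one_le_cast.2 NeZero.one_le : (1 : ℝ) ≤ q)])
  obtain ⟨B, hB⟩ : ∃ B, B = 12 + 16 * (C * L / √N) := ⟨_, rfl⟩
  have h2 : ∀ n : ℕ, ‖∑ k ∈ Ioc 0 n, ∑ j ∈ Ioc 0 k, twist χ j‖ ≤
      C * L * ((n + 1 : ℕ) * √((n + 1 : ℕ) : ℝ)) := fun n => by
    rw [LOneGRH.sum_partial_eq]
    have h1 := h q χ hχ hG ((n + 1 : ℕ) : ℝ) (Nat.one_le_cast.2 (by omega))
    rw [psiOneChar, Nat.floor_natCast, ← hL] at h1
    refine le_trans (le_of_eq (congrArg norm ?_)) (h1.trans (le_of_eq (by ring)))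
    refine sum_congr (by ext j; simp; omega) fun j _ => ?_
    push_cast
    ring
  obtain ⟨F, hF⟩ : ∃ F : ℕ → ℝ → ℂ,
      F = fun M s => ∑ n ∈ Ioc 0 M, twist χ n * (((n : ℝ) ^ (-s) : ℝ) : ℂ) := ⟨_, rfl⟩
  have hright : ∀ s : ℝ, 1 < s → s ≤ 2 →
      ‖-(deriv (LFunction χ) (s : ℂ)) / LFunction χ (s : ℂ) - F N s‖ ≤ B := by
    intro s hs hs2
    have hre : 1 < (s : ℂ).re := by simpa using hs
    rw [deriv_LFunction_eq_deriv_LSeries χ hre, LFunction_eq_LSeries χ hre,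
      ← LSeries_twist_vonMangoldt_eq χ hre]
    have hlim : Tendsto (fun M => F M s) atTop (𝓝 (LSeries
        ((fun n : ℕ => χ n) * fun n : ℕ => (Λ n : ℂ)) (s : ℂ))) := by
      have hsum := (LSeriesSummable_twist_vonMangoldt χ hre).hasSum.tendsto_sum_nat
      refine (hsum.comp (tendsto_add_atTop_nat 1)).congr fun M => ?_
      rw [hF, Function.comp_apply, show range (M + 1) = insert 0 (Ioc 0 M) by ext; simp,
        sum_insert (by simp), LSeries.term_zero, zero_add]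
      refine sum_congr rfl fun n hn => ?_
      have hn0 : n ≠ 0 := by rw [mem_Ioc] at hn; omega
      rw [LSeries.term_of_ne_zero hn0, Complex.ofReal_cpow (Nat.cast_nonneg n), twist,
        Complex.ofReal_neg, Complex.cpow_neg, Complex.ofReal_natCast, Pi.mul_apply,
        div_eq_mul_inv]
    refine le_of_tendsto ((hlim.sub_const (F N s)).norm) ((eventually_ge_atTop N).mono
      fun M hM => ?_)
    have e : F M s - F N s = ∑ n ∈ Ioc N M, twist χ n * (((n : ℝ) ^ (-s) : ℝ) : ℂ) := by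
      simp only [hF]
      rw [← sum_Ioc_consecutive _ (Nat.zero_le N) hM, add_sub_cancel_left]
    rw [e, hB]
    exact norm_sum_rpow_le (by positivity) (norm_sum_twist_le χ) h2 hs.le hs2 hN hM
  have hlim : Tendsto (fun s : ℝ => -(deriv (LFunction χ) (s : ℂ)) / LFunction χ (s : ℂ) - F N s)
      (𝓝[>] 1) (𝓝 (-(deriv (LFunction χ) 1) / LFunction χ 1 - F N 1)) := by
    have hd := differentiable_LFunction hχ
    refine Tendsto.sub ?_ ?_
    · refine Tendsto.comp (g := fun z : ℂ => -(deriv (LFunction χ) z) / LFunction χ z) ?_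
        ((Complex.continuous_ofReal.tendsto' 1 1 Complex.ofReal_one).mono_left nhdsWithin_le_nhds)
      exact (((hd.contDiff (n := 1)).continuous_deriv le_rfl).neg.continuousAt.div
        hd.continuous.continuousAt (LFunction_apply_one_ne_zero hχ))
    · refine (ContinuousAt.tendsto ?_).mono_left nhdsWithin_le_nhds
      simp only [hF]
      refine tendsto_finsetSum _ fun n hn => ?_
      have hn0 : n ≠ 0 := by rw [mem_Ioc] at hn; omega
      exact (continuousAt_const.mul (Complex.continuous_ofReal.continuousAt.comp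
        ((Real.continuousAt_const_rpow (Nat.cast_ne_zero.2 hn0)).comp continuousAt_neg))).tendsto
  have hb := le_of_tendsto hlim.norm (by
    filter_upwards [Ioc_mem_nhdsGT one_lt_two] with s hs
    exact hright s hs.1 hs.2)
  have e1 : F N 1 = ∑ n ∈ Ioc 0 N, twist χ n / n := by
    rw [hF]
    refine sum_congr rfl fun n _ => ?_
    rw [Real.rpow_neg_one, Complex.ofReal_inv, Complex.ofReal_natCast, div_eq_mul_inv]
  rw [e1] at hb
  refine hb.trans ?_
  rw [hB, ← hL]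
  have h3 : 0 ≤ L / √(N : ℝ) := by positivity
  rw [mul_div_assoc C]
  nlinarith

/-- **`|L'/L (1, χ)| ≤ 2 log log q + O (1)`.** -/
theorem exists_logDeriv_bound : ∃ C, ∀ (q : ℕ) [NeZero q]
    (χ : DirichletCharacter ℂ q), χ ≠ 1 → GRHFor χ →
      ‖deriv (LFunction χ) 1 / LFunction χ 1‖ ≤ 2 * Real.log (Real.log (2 * q)) + C := by
  obtain ⟨C, hC, h⟩ := exists_logDeriv_one
  refine ⟨8 + 2 * C, fun q _ χ hχ hG => ?_⟩
  obtain ⟨L, hL⟩ : ∃ L, L = Real.log (2 * q) := ⟨_, rfl⟩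
  have hq2 : 2 ≤ q := by
    by_contra hlt
    have h1 : q = 1 := by have := NeZero.pos q; omega
    exact hχ (DirichletCharacter.level_one' _ h1)
  have hq2' : (2 : ℝ) ≤ q := Nat.ofNat_le_cast.2 hq2
  have hL1 : 1 ≤ L := by
    rw [hL]
    refine le_trans ?_ (Real.log_le_log (by norm_num : (0 : ℝ) < 4) (by linarith))
    rw [show (4 : ℝ) = 2 ^ 2 by norm_num, Real.log_pow]
    push_cast
    linarith [Real.log_two_gt_d9]
  obtain ⟨N, hN⟩ : ∃ N, N = LOneGRH.cutOff q := ⟨_, rfl⟩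
  have hN1 : L ^ 2 ≤ (N : ℝ) := by
    rw [hN, LOneGRH.cutOff, hL]
    exact Nat.le_ceil _
  have hN1' : 1 ≤ N := by
    rw [Nat.one_le_iff_ne_zero]
    intro e
    rw [e, Nat.cast_zero] at hN1
    nlinarith
  have hN2 : (N : ℝ) ≤ 2 * L ^ 2 := by
    rw [hN, LOneGRH.cutOff, ← hL]
    have := Nat.ceil_lt_add_one (show (0 : ℝ) ≤ L ^ 2 by positivity)
    nlinarith
  have h1 := h q χ hχ hG N hN1'
  have hsum : ‖∑ n ∈ Ioc 0 N, twist χ n / n‖ ≤ Real.log N + 6 := by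
    refine (norm_sum_le_of_le (n := fun n : ℕ => Λ n / n) _ fun n _ => ?_).trans ?_
    · rw [norm_div, Complex.norm_natCast, twist, norm_mul, Complex.norm_real,
        Real.norm_of_nonneg ArithmeticFunction.vonMangoldt_nonneg]
      exact div_le_div_of_nonneg_right (mul_le_of_le_one_left
        ArithmeticFunction.vonMangoldt_nonneg (χ.norm_le_one _)) (Nat.cast_nonneg n)
    · linarith [(abs_le.1 (PrimesMinusOne.abs_sum_vonMangoldt_div_sub_le hN1')).2]
  have hlogN : Real.log N ≤ 2 * Real.log L + 1 := by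
    refine (Real.log_le_log (Nat.cast_pos.2 hN1') hN2).trans ?_
    rw [Real.log_mul two_ne_zero (by positivity), Real.log_pow]
    push_cast
    linarith [Real.log_two_lt_d9]
  have hLN : L / √(N : ℝ) ≤ 1 :=
    div_le_one_of_le₀ (Real.le_sqrt_of_sq_le hN1) (Real.sqrt_nonneg _)
  rw [← hL] at h1
  have e : ‖deriv (LFunction χ) 1 / LFunction χ 1‖ =
      ‖-(deriv (LFunction χ) 1) / LFunction χ 1‖ := by rw [neg_div, norm_neg]
  have h4 := norm_le_norm_add_norm_sub' (-(deriv (LFunction χ) 1) / LFunction χ 1)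
    (∑ n ∈ Ioc 0 N, twist χ n / n)
  rw [e, ← hL]
  nlinarith

end FA.PaleyCharSum

end
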