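import Fermat.Agent.PaleyCharSum.Odd

/-!
# Paley's theorem: character sums `≫ √q log log q` infinitely often
-/

set_option autoImplicit false

noncomputable section

namespace FA.PaleyCharSum

open Finset DirichletCharacter
open FA.OrderTheta (signChar)
open FA.ClassNumberExtremes (LVal LFunction_eq_LVal LVal_pos card_cl_eq jn jn_odd signChar_natCast
  signChar_sq signChar_isPrimitive exists_large_squarefree)
open scoped Real

variable {n : ℕ} [NeZero n] [NeZero (4 * n)]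

omit [NeZero (4 * n)] in
theorem signChar_odd (h4 : n % 4 = 1) : (signChar n).Odd := by
  show signChar n (-1) = -1
  have e : (-1 : ZMod (4 * n)) = ((4 * n - 1 : ℕ) : ZMod (4 * n)) := by
    rw [Nat.cast_sub (by omega), ZMod.natCast_self, Nat.cast_one, zero_sub]
  have hm : _root_.Odd (4 * n - 1) := ⟨2 * n - 1, by omega⟩
  have hn : _root_.Odd n := Nat.odd_iff.2 (by omega)
  have key : jacobiSym (-(n : ℤ)) (4 * n - 1) = -1 := by
    rw [show -(n : ℤ) = (-1) * (n : ℤ) by ring, jacobiSym.mul_left, jacobiSym.at_neg_one hm,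
      ZMod.χ₄_nat_three_mod_four (by omega), jacobiSym.quadratic_reciprocity_one_mod_four h4 hm]
    have h1 : (((4 * n - 1 : ℕ) : ℤ)) % (n : ℤ) = (-1 : ℤ) % (n : ℤ) := by
      rw [Nat.cast_sub (by omega)]
      push_cast
      rw [sub_eq_add_neg, add_comm, Int.add_mul_emod_self_right]
    rw [jacobiSym.mod_left, h1, ← jacobiSym.mod_left, jacobiSym.at_neg_one hn,
      ZMod.χ₄_nat_one_mod_four h4, mul_one]
  rw [e, signChar_natCast, jn_odd n hm, key]
  simp

omit [NeZero (4 * n)] in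
theorem signChar_inv : (signChar n)⁻¹ = signChar n := by
  rw [inv_eq_iff_mul_eq_one, ← sq, signChar_sq]

/-- Some partial sum is `≥ 2 √n L (1, χ) / π`. -/
theorem exists_partial_ge (hsq : Squarefree n) (h4 : n % 4 = 1) :
    ∃ M : ℕ, M < 4 * n ∧
      2 * √(n : ℝ) / π * LVal n ≤ ‖∑ m ∈ Ioc 0 M, signChar n (m : ZMod (4 * n))‖ := by
  have hn := NeZero.pos n
  obtain ⟨M, hM, hb⟩ := exists_big_partial (show 1 < 4 * n by omega)
    (signChar_isPrimitive hsq h4) (signChar_odd h4)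
  refine ⟨M, hM, ?_⟩
  rw [signChar_inv, LFunction_eq_LVal, Complex.norm_real, Real.norm_of_nonneg LVal_pos.le,
    Nat.cast_mul, Real.sqrt_mul (Nat.cast_nonneg 4)] at hb
  refine le_trans (le_of_eq ?_) hb
  rw [show √((4 : ℕ) : ℝ) = 2 by
    rw [show ((4 : ℕ) : ℝ) = (2 : ℝ) ^ 2 by norm_num, Real.sqrt_sq two_pos.le]]
  ring

/-- The class number is at most the greatest partial sum. -/
theorem exists_card_cl_le (hsq : Squarefree n) (h4 : n % 4 = 1) (hn : 1 < n) :
    ∃ M : ℕ, M < 4 * n ∧ (Nat.card (FA.OrderTheta.Cl n) : ℝ) ≤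
      ‖∑ m ∈ Ioc 0 M, signChar n (m : ZMod (4 * n))‖ := by
  rw [card_cl_eq hn]
  exact exists_partial_ge hsq h4

omit [NeZero n] [NeZero (4 * n)] in
/-- **Paley.** -/
theorem exists_paley : ∃ c : ℝ, 0 < c ∧ ∀ Q : ℕ, ∃ q : ℕ, Q < q ∧ ∃ _ : NeZero q,
    ∃ χ : DirichletCharacter ℂ q, χ.IsPrimitive ∧ χ ^ 2 = 1 ∧ χ ≠ 1 ∧ ∃ M : ℕ, M < q ∧
      c * √(q : ℝ) * Real.log (Real.log q) ≤ ‖∑ m ∈ Ioc 0 M, χ (m : ZMod q)‖ := by
  obtain ⟨c, hc, h⟩ := exists_large_squarefree
  refine ⟨c / (2 * π), by positivity, fun Q => ?_⟩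
  obtain ⟨n, hQ, hn0, hsq, h4, hle⟩ := h (max Q 8)
  have hn4 : 8 < n := lt_of_le_of_lt (le_max_right _ _) hQ
  have : NeZero (4 * n) := ⟨by omega⟩
  refine ⟨4 * n, by omega, inferInstance, signChar n, signChar_isPrimitive hsq h4, signChar_sq,
    FA.OrderTheta.signChar_ne_one (n := n), ?_⟩
  obtain ⟨M, hM, hb⟩ := exists_partial_ge hsq h4
  refine ⟨M, hM, le_trans ?_ hb⟩
  have hn5 : (8 : ℝ) ≤ n := Nat.ofNat_le_cast.2 hn4.le
  have hlog : Real.log (Real.log ((4 * n : ℕ) : ℝ)) ≤ 2 * Real.log (Real.log n) := by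
    push_cast
    have h0 : 2 ≤ Real.log n := by
      refine le_trans ?_ (Real.log_le_log (by norm_num) hn5)
      rw [show (8 : ℝ) = 2 ^ 3 by norm_num, Real.log_pow]
      push_cast
      linarith [Real.log_two_gt_d9]
    have h2 : Real.log (4 * (n : ℝ)) ≤ Real.log n ^ 2 := by
      rw [Real.log_mul four_ne_zero (by linarith)]
      have : Real.log (4 : ℝ) ≤ Real.log n := Real.log_le_log (by norm_num) (by linarith)
      nlinarith
    refine (Real.log_le_log (Real.log_pos (by linarith)) h2).trans (le_of_eq ?_)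
    rw [Real.log_pow]
    norm_num
  have hs : √((4 * n : ℕ) : ℝ) = 2 * √(n : ℝ) := by
    push_cast
    rw [Real.sqrt_mul (by norm_num), show (4 : ℝ) = 2 ^ 2 by norm_num, Real.sqrt_sq two_pos.le]
  rw [hs]
  calc c / (2 * π) * (2 * √(n : ℝ)) * Real.log (Real.log ((4 * n : ℕ) : ℝ))
      ≤ c / (2 * π) * (2 * √(n : ℝ)) * (2 * Real.log (Real.log n)) :=
        mul_le_mul_of_nonneg_left hlog (by positivity)
    _ = 2 * √(n : ℝ) / π * (c * Real.log (Real.log n)) := by ring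
    _ ≤ _ := mul_le_mul_of_nonneg_left hle (by positivity)

end FA.PaleyCharSum

end
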