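import Fermat.Agent.ThetaOne.LValueOne
import Fermat.Agent.BombieriVinogradov.Characters
import Fermat.Agent.ClassNumberExtremes.Main

/-!
# Large character sums from `L (1, χ)` for odd characters

`L (1, χ) = π i τ χ / q ^ 2 * ∑ a χ̄ a`, so some partial sum of `χ̄` is `≥ √q |L (1, χ)| / π`.
-/

set_option autoImplicit false

noncomputable section

namespace FA.PaleyCharSum

open Finset DirichletCharacter
open scoped Real

variable {q : ℕ} [NeZero q]

theorem sum_zmod_eq_range (F : ZMod q → ℂ) :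
    ∑ a : ZMod q, F a = ∑ j ∈ range q, F (j : ZMod q) :=
  sum_nbij' (fun a => a.val) (fun j => (j : ZMod q)) (fun a _ => mem_range.2 a.val_lt)
    (fun j _ => mem_univ _) (fun a _ => ZMod.natCast_zmod_val a)
    (fun j hj => ZMod.val_cast_of_lt (mem_range.1 hj))
    fun a _ => by rw [ZMod.natCast_zmod_val]

/-- **`L (1, χ)` for odd primitive `χ`.** -/
theorem lfunction_one_odd (hq : 1 < q) {χ : DirichletCharacter ℂ q} (hp : χ.IsPrimitive)
    (ho : χ.Odd) : LFunction χ 1 = (π : ℂ) * Complex.I * gaussSum χ ZMod.stdAddChar / (q : ℂ) ^ 2 *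
      ∑ a ∈ range q, (a : ℂ) * χ⁻¹ (a : ZMod q) := by
  have hp' : χ⁻¹.IsPrimitive := (DirichletCharacter.conductor_inv χ).trans hp
  have : Fact (1 < q) := ⟨hq⟩
  have hne : χ⁻¹ ≠ 1 := fun e => by
    have h := (isPrimitive_def _).1 hp'
    rw [e, conductor_one] at h
    omega
  obtain ⟨S, hS⟩ : ∃ S : ZMod q → ℝ, S = fun a =>
      if a = 0 then 0 else Real.log (2 * Real.sin (π * ((a.val : ℝ) / q))) := ⟨_, rfl⟩
  have hneg : ∀ a : ZMod q, a ≠ 0 → ((-a).val : ℝ) / q = 1 - (a.val : ℝ) / q := fun a ha => by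
    have hq0 : (q : ℝ) ≠ 0 := Nat.cast_ne_zero.2 (NeZero.ne q)
    rw [ZMod.neg_val, if_neg ha, Nat.cast_sub (ZMod.val_lt a).le]
    field_simp
  have hSneg : ∀ a, S (-a) = S a := fun a => by
    by_cases ha : a = 0
    · rw [ha, neg_zero]
    · simp only [hS, if_neg ha, if_neg (neg_ne_zero.2 ha), hneg a ha, mul_sub, mul_one,
        Real.sin_pi_sub]
  have hlog : ∀ a : ZMod q, χ⁻¹ a * Complex.log (1 - ZMod.stdAddChar (-a)) =
      χ⁻¹ a * (S a : ℂ) +
        (π : ℂ) * Complex.I * (χ⁻¹ a / 2 - (a.val : ℂ) / q * χ⁻¹ a) := fun a => by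
    by_cases ha : a = 0
    · rw [ha, MulChar.map_zero]; ring
    · have h := OrderTheta.val_div_mem_Ioo (neg_ne_zero.2 ha)
      rw [← OrderTheta.circlePoint_val, OrderTheta.log_one_sub_circlePoint h, ← hSneg a]
      simp only [hS, if_neg (neg_ne_zero.2 ha), hneg a ha]
      push_cast
      ring
  have hodd : ∑ a : ZMod q, χ⁻¹ a * (S a : ℂ) = 0 := by
    refine Function.Odd.sum_eq_zero fun a => ?_
    rw [hSneg, show χ⁻¹ (-a) = -χ⁻¹ a by
      have h1 : χ⁻¹ (-1) = -1 := by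
        rw [MulChar.inv_apply, ← Units.val_one, ← Units.val_neg, Ring.inverse_unit, inv_neg_one]
        exact ho.trans (by simp)
      rw [← neg_one_mul a, map_mul, h1, neg_one_mul], neg_mul]
  rw [OrderTheta.lFunction_one_primitive hq hp hp', sum_congr rfl fun a _ => hlog a,
    sum_add_distrib, hodd, zero_add, ← mul_sum, sum_sub_distrib, ← sum_div,
    MulChar.sum_eq_zero_of_ne_one hne, zero_div, zero_sub, sum_zmod_eq_range]
  have e : ∀ j ∈ range q, (((j : ZMod q)).val : ℂ) / q * χ⁻¹ (j : ZMod q) =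
      (j : ℂ) * χ⁻¹ (j : ZMod q) / q := fun j hj => by
    rw [ZMod.val_cast_of_lt (mem_range.1 hj)]
    ring
  rw [sum_congr rfl e, ← sum_div]
  ring

theorem sum_prefix (f : ℕ → ℂ) (N : ℕ) :
    ∑ M ∈ range N, ∑ a ∈ range M, f a = ∑ a ∈ range N, ((N : ℂ) - 1 - a) * f a := by
  induction N with
  | zero => simp
  | succ N ih =>
    rw [sum_range_succ, ih, sum_range_succ, ← sum_add_distrib]
    push_cast
    rw [show ((N : ℂ) + 1 - 1 - N) = 0 by ring, zero_mul, add_zero]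
    exact sum_congr rfl fun a _ => by ring

/-- **A partial sum at least `√q |L (1, χ)| / π`.** -/
theorem exists_big_partial (hq : 1 < q) {χ : DirichletCharacter ℂ q} (hp : χ.IsPrimitive)
    (ho : χ.Odd) :
    ∃ M : ℕ, M < q ∧ √(q : ℝ) * ‖LFunction χ 1‖ / π ≤ ‖∑ n ∈ Ioc 0 M, χ⁻¹ (n : ZMod q)‖ := by
  obtain ⟨f, hf⟩ : ∃ f : ℕ → ℂ, f = fun n : ℕ => χ⁻¹ (n : ZMod q) := ⟨_, rfl⟩
  have : Fact (1 < q) := ⟨hq⟩
  have hne : χ⁻¹ ≠ 1 := fun e => by
    have h := (isPrimitive_def _).1 ((DirichletCharacter.conductor_inv χ).trans hp)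
    rw [e, conductor_one] at h
    omega
  have hz : ∑ a ∈ range q, f a = 0 := by
    rw [hf, ← sum_zmod_eq_range fun a => χ⁻¹ a]
    exact MulChar.sum_eq_zero_of_ne_one hne
  have hid : ∑ a ∈ range q, (a : ℂ) * f a = -∑ M ∈ range q, ∑ a ∈ range M, f a := by
    rw [sum_prefix, ← sum_neg_distrib]
    calc ∑ a ∈ range q, (a : ℂ) * f a
        = ∑ a ∈ range q, (a : ℂ) * f a - ((q : ℂ) - 1) * ∑ a ∈ range q, f a := by
          rw [hz, mul_zero, sub_zero]
      _ = _ := by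
          rw [mul_sum, ← sum_sub_distrib]
          exact sum_congr rfl fun a _ => by ring
  obtain ⟨M, hM, hmax⟩ := exists_max_image (range q) (fun M => ‖∑ a ∈ range M, f a‖)
    ⟨0, mem_range.2 (by omega)⟩
  refine ⟨M - 1, by rw [mem_range] at hM; omega, ?_⟩
  have e : ∑ n ∈ Ioc 0 (M - 1), χ⁻¹ (n : ZMod q) = ∑ a ∈ range M, f a := by
    rcases Nat.eq_zero_or_pos M with rfl | hM0
    · simp
    · rw [show range M = insert 0 (Ioc 0 (M - 1)) by ext; simp; omega, sum_insert (by simp), hf]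
      simp only [Nat.cast_zero, MulChar.map_zero, zero_add]
  rw [e]
  have hbound : ‖∑ a ∈ range q, (a : ℂ) * f a‖ ≤ q * ‖∑ a ∈ range M, f a‖ := by
    rw [hid, norm_neg]
    refine (norm_sum_le_of_le _ hmax).trans (le_of_eq ?_)
    rw [sum_const, card_range, nsmul_eq_mul]
  have hL := congrArg norm (lfunction_one_odd hq hp ho)
  rw [norm_mul, norm_div, norm_mul, norm_mul, Complex.norm_I, mul_one, Complex.norm_real,
    Real.norm_of_nonneg Real.pi_pos.le, BombieriVinogradov.norm_gauss hp, norm_pow,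
    Complex.norm_natCast] at hL
  rw [hf] at hbound ⊢
  rw [hL]
  have hq0 : (0 : ℝ) < q := Nat.cast_pos.2 (by omega)
  calc √(q : ℝ) * (π * √(q : ℝ) / (q : ℝ) ^ 2 *
        ‖∑ a ∈ range q, (a : ℂ) * χ⁻¹ (a : ZMod q)‖) / π
      = ‖∑ a ∈ range q, (a : ℂ) * χ⁻¹ (a : ZMod q)‖ / q := by
        field_simp
        rw [Real.sq_sqrt hq0.le]
    _ ≤ _ := by
        rw [div_le_iff₀' hq0]
        exact hbound

end FA.PaleyCharSum

end
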